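import Fermat.Agent.S14.T1.DictB
import Fermat.Agent.GR.Adic.Cyclo

/-!
# ORD / P1 : inertia at `p` and the cyclotomic character

* `sub_one_mem_nonunits` : `p`-power roots of unity are `≡ 1` at every place over `p`;
* `exists_inertia_pow` : for `a` prime to `p` there is `τ` in the inertia group of `A ∣ p` with
  `τ ζ = ζ ^ a` on the `p ^ m`-th roots of unity (`ℚ(ζ_{p^m})` is totally ramified at `p`).
-/

set_option autoImplicit false

namespace Fermat.Agent.ORD.P1

open Fermat.Agent.GR.Asm (inertia_spec mem_of_pow_eq_one mul_mem_nonunits_of_mem)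

local notation "Qbar" => AlgebraicClosure ℚ
local notation "GQ" => (AlgebraicClosure ℚ ≃ₐ[ℚ] AlgebraicClosure ℚ)

/-- `p`-power roots of unity are `≡ 1` at every place over `p`. -/
theorem sub_one_mem_nonunits (A : ValuationSubring Qbar) {p : ℕ} (hp : p.Prime)
    (hA : A.LiesOverPrime p) (m : ℕ) {ζ : Qbar} (hζ : ζ ^ p ^ m = 1) : ζ - 1 ∈ A.nonunits := by
  have hmem : ζ ∈ A := mem_of_pow_eq_one A (pow_pos hp.pos _) hζ
  have hpA : (p : Qbar) ∈ A.nonunits := hA
  rw [ValuationSubring.mem_nonunits_iff_exists_mem_maximalIdeal] at hpA ⊢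
  obtain ⟨hpm, hpmax⟩ := hpA
  refine ⟨A.sub_mem hmem A.one_mem, ?_⟩
  have : Fact p.Prime := ⟨hp⟩
  have hchar : CharP (IsLocalRing.ResidueField A) p := by
    rw [CharP.charP_iff_prime_eq_zero hp]
    have h1 : IsLocalRing.residue A (⟨(p : Qbar), hpm⟩ : A) = 0 :=
      (IsLocalRing.residue_eq_zero_iff _).mpr hpmax
    have h2 : (⟨(p : Qbar), hpm⟩ : A) = (p : A) := Subtype.ext (by simp)
    rw [h2, map_natCast] at h1
    exact h1
  rw [← IsLocalRing.residue_eq_zero_iff]
  have h0 : (⟨ζ - 1, A.sub_mem hmem A.one_mem⟩ : A) = (⟨ζ, hmem⟩ : A) - 1 := rfl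
  rw [h0, map_sub, map_one]
  have h1 : (IsLocalRing.residue A ⟨ζ, hmem⟩) ^ p ^ m = 1 := by
    rw [← map_pow]
    have : (⟨ζ, hmem⟩ : A) ^ p ^ m = 1 := Subtype.ext hζ
    rw [this, map_one]
  have h2 : (IsLocalRing.residue A ⟨ζ, hmem⟩ - 1) ^ p ^ m = 0 := by
    rw [sub_pow_expChar_pow, h1, one_pow, sub_self]
  exact pow_eq_zero_iff (pow_pos hp.pos m).ne' |>.mp h2

theorem add_mem_nonunits (A : ValuationSubring Qbar) {x y : Qbar} (hx : x ∈ A.nonunits)
    (hy : y ∈ A.nonunits) : x + y ∈ A.nonunits := by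
  rw [ValuationSubring.mem_nonunits_iff_exists_mem_maximalIdeal] at hx hy ⊢
  obtain ⟨hxA, hxm⟩ := hx
  obtain ⟨hyA, hym⟩ := hy
  exact ⟨A.add_mem _ _ hxA hyA, Ideal.add_mem _ hxm hym⟩

/-- `ℚ(ζ_{p^m})` is totally ramified at `p`: every power map prime to `p` on the `p ^ m`-th roots
of unity is induced by an element of the inertia group. -/
theorem exists_inertia_pow (A : ValuationSubring Qbar) {p : ℕ} (hp : p.Prime)
    (hA : A.LiesOverPrime p) (m a : ℕ) (ha : ¬ p ∣ a) :
    ∃ τ ∈ A.inertiaSubgroupIn ℚ, ∀ ζ : Qbar, ζ ^ p ^ m = 1 → τ ζ = ζ ^ a := by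
  have : Fact p.Prime := ⟨hp⟩
  have hgal : IsGalois ℚ Qbar := Fermat.Agent.Lib.FrobeniusExists.isGalois_algebraicClosure_rat
  have hn : NeZero (p ^ m) := ⟨(pow_pos hp.pos m).ne'⟩
  obtain ⟨ζ, hζ⟩ := Fermat.Agent.GR.Adic.cyc_exists_primitiveRoot p m
  have hcop : Nat.Coprime a (p ^ m) :=
    Nat.Coprime.pow_right m ((Nat.Prime.coprime_iff_not_dvd hp).mpr ha).symm
  -- an automorphism `g` with `g ζ = ζ ^ a`
  obtain ⟨g, hg⟩ : ∃ g : GQ, g ζ = ζ ^ a := by
    have hint : IsIntegral ℚ ζ := (hζ.isIntegral (pow_pos hp.pos m)).tower_top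
    refine minpoly.exists_algEquiv_of_root' hint.isAlgebraic ?_
    rw [← Polynomial.cyclotomic_eq_minpoly_rat hζ (pow_pos hp.pos m)]
    have h1 : IsPrimitiveRoot (ζ ^ a) (p ^ m) := hζ.pow_of_coprime a hcop
    have h2 := (Polynomial.isRoot_cyclotomic_iff (n := p ^ m) (R := Qbar)).mpr h1
    rw [← Polynomial.map_cyclotomic (p ^ m) (algebraMap ℚ Qbar), Polynomial.IsRoot.def,
      Polynomial.eval_map_algebraMap] at h2
    exact h2
  let E : IntermediateField ℚ Qbar := IntermediateField.adjoin ℚ {ζ}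
  have hcyc : IsCyclotomicExtension {p ^ m} ℚ E :=
    hζ.intermediateField_adjoin_isCyclotomicExtension ℚ
  have hEgal : IsGalois ℚ E := IsCyclotomicExtension.isGalois {p ^ m} ℚ E
  have hnorm : E.fixingSubgroup.Normal :=
    @IsGalois.fixingSubgroup_normal_of_isGalois ℚ Qbar _ _ _ E hgal hEgal
  have hζE : ζ ∈ E := IntermediateField.mem_adjoin_simple_self ℚ ζ
  have hζ' : IsPrimitiveRoot (⟨ζ, hζE⟩ : E) (p ^ m) :=
    IsPrimitiveRoot.of_map_of_injective (f := algebraMap E Qbar) (hf := (algebraMap E Qbar).injective) hζ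
  have hic := IsCyclotomicExtension.Rat.isIntegralClosure_adjoin_singleton hζ'
  have hζA : ζ ∈ A := mem_of_pow_eq_one A (pow_pos hp.pos _) hζ.pow_eq_one
  obtain ⟨τ, hτ, hτE⟩ := Fermat.Agent.S14.DictB.lift_inertia_aux E A g (by
    intro x hxE hxint
    have hint : IsIntegral ℤ (⟨x, hxE⟩ : E) :=
      (isIntegral_algebraMap_iff (B := Qbar) (algebraMap E Qbar).injective).mp hxint
    obtain ⟨y, hy⟩ := hic.isIntegral_iff.mp hint
    have key : ∀ z : E, z ∈ Algebra.adjoin ℤ {(⟨ζ, hζE⟩ : E)} →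
        (z : Qbar) ∈ A ∧ g (z : Qbar) ∈ A ∧ g (z : Qbar) - (z : Qbar) ∈ A.nonunits := by
      intro z hz
      induction hz using Algebra.adjoin_induction with
      | mem z hz =>
        rw [Set.mem_singleton_iff] at hz
        subst hz
        refine ⟨hζA, ?_, ?_⟩
        · change g ζ ∈ A
          rw [hg]
          exact pow_mem hζA a
        · change g ζ - ζ ∈ A.nonunits
          rw [hg]
          have h1 : ζ ^ a - ζ = (ζ ^ a - 1) + (-1) * (ζ - 1) := by ring
          rw [h1]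
          refine add_mem_nonunits A (sub_one_mem_nonunits A hp hA m ?_) ?_
          · rw [← pow_mul, mul_comm, pow_mul, hζ.pow_eq_one, one_pow]
          · rw [mul_comm]
            exact mul_mem_nonunits_of_mem A (sub_one_mem_nonunits A hp hA m hζ.pow_eq_one)
              (A.neg_mem _ A.one_mem)
      | algebraMap r =>
        have h1 : ((algebraMap ℤ E r : E) : Qbar) = (r : Qbar) := by simp
        rw [h1, map_intCast, sub_self]
        exact ⟨intCast_mem A r, intCast_mem A r, by simp⟩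
      | add x y _ _ hx hy =>
        obtain ⟨hx1, hx2, hx3⟩ := hx
        obtain ⟨hy1, hy2, hy3⟩ := hy
        refine ⟨A.add_mem _ _ hx1 hy1, ?_, ?_⟩
        · change g ((x : Qbar) + (y : Qbar)) ∈ A
          rw [map_add]
          exact A.add_mem _ _ hx2 hy2
        · change g ((x : Qbar) + (y : Qbar)) - ((x : Qbar) + (y : Qbar)) ∈ A.nonunits
          have h1 : g ((x : Qbar) + (y : Qbar)) - ((x : Qbar) + (y : Qbar)) =
              (g (x : Qbar) - (x : Qbar)) + (g (y : Qbar) - (y : Qbar)) := by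
            rw [map_add]; ring
          rw [h1]
          exact add_mem_nonunits A hx3 hy3
      | mul x y _ _ hx hy =>
        obtain ⟨hx1, hx2, hx3⟩ := hx
        obtain ⟨hy1, hy2, hy3⟩ := hy
        refine ⟨A.mul_mem _ _ hx1 hy1, ?_, ?_⟩
        · change g ((x : Qbar) * (y : Qbar)) ∈ A
          rw [map_mul]
          exact A.mul_mem _ _ hx2 hy2
        · change g ((x : Qbar) * (y : Qbar)) - ((x : Qbar) * (y : Qbar)) ∈ A.nonunits
          have h1 : g ((x : Qbar) * (y : Qbar)) - ((x : Qbar) * (y : Qbar)) =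
              (g (x : Qbar) - (x : Qbar)) * g (y : Qbar) + (g (y : Qbar) - (y : Qbar)) * (x : Qbar) := by
            rw [map_mul]; ring
          rw [h1]
          exact add_mem_nonunits A (mul_mem_nonunits_of_mem A hx3 hy2)
            (mul_mem_nonunits_of_mem A hy3 hx1)
    have h3 := (key (y : E) y.2).2.2
    have h4 : ((y : E) : Qbar) = x := congrArg Subtype.val hy
    rwa [h4] at h3)
  refine ⟨τ, hτ, fun η hη => ?_⟩
  obtain ⟨i, -, rfl⟩ := hζ.eq_pow_of_pow_eq_one hη
  rw [map_pow, hτE ζ hζE, hg, ← pow_mul, ← pow_mul, mul_comm]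

end Fermat.Agent.ORD.P1
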