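import Fermat.Agent.TOR.AdicMaster
import Fermat.Agent.GR.Adic.Cyclo
import Fermat.Prelude.Def_GaloisRep_LocalConditions

/-!
# ORD / P1 : `det ρ = ε` and the residual characteristic polynomial on inertia at `p`
-/

set_option autoImplicit false

namespace Fermat.Agent.ORD.P1

open Fermat.Agent.GR.Adic IsLocalRing Module Polynomial Fermat.Agent.TOR
open Fermat.Agent.GR.Asm (WeakChebotarev)

local notation "Qbar" => AlgebraicClosure ℚ
local notation "GQ" => (AlgebraicClosure ℚ ≃ₐ[ℚ] AlgebraicClosure ℚ)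

/-- a representation with `det ρ(Frob_ℓ) = ℓ` for almost all `ℓ` has cyclotomic determinant. -/
theorem det_eq_cycO (hcheb : WeakChebotarev) (p : ℕ) [Fact p.Prime] {R : Type} [CommRing R]
    [IsLocalRing R] [IsAdicComplete (maximalIdeal R) R] (hpR : (p : R) ∈ maximalIdeal R)
    (ρ : GaloisRepAdic R) (B : Finset ℕ)
    (hρ : ∀ ℓ : ℕ, ℓ.Prime → ℓ ∉ B → ∀ A : ValuationSubring Qbar, A.LiesOverPrime ℓ →
      ∀ σ : GQ, A.IsFrobeniusAt σ ℓ → LinearMap.det (ρ.ρ σ) = (ℓ : R)) (g : GQ) :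
    LinearMap.det (ρ.ρ g) = ((cycO p R hpR g : Rˣ) : R) := by
  apply tor_eq_of_forall_sub_mem_pow
  intro n
  obtain ⟨L₁, hL₁, h₁⟩ := tor_exists_level ρ n
  obtain ⟨L₂, hL₂, h₂⟩ := cycO_level p R hpR n
  have hL : FiniteDimensional ℚ (L₁ ⊔ L₂ : IntermediateField ℚ Qbar) :=
    IntermediateField.finiteDimensional_sup L₁ L₂
  obtain ⟨ℓ, A, σ, j, hℓ, hℓB, hA, hσ, hj⟩ := hcheb (L₁ ⊔ L₂) hL (insert p B) g
  have hℓp : ℓ ≠ p := fun h => hℓB (by rw [h]; exact Finset.mem_insert_self _ _)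
  have hℓB' : ℓ ∉ B := fun h => hℓB (Finset.mem_insert_of_mem h)
  have e1 : LinearMap.det (ρ.ρ (σ ^ j)) = ((cycO p R hpR (σ ^ j) : Rˣ) : R) := by
    rw [map_pow, map_pow, map_pow, Units.val_pow_eq_pow_val, hρ ℓ hℓ hℓB' A hA σ hσ,
      cycO_frobenius p R hpR hℓ hℓp A hA σ hσ]
  have e2 := (h₁ g (σ ^ j) (fun x hx => (hj x ((le_sup_left : L₁ ≤ L₁ ⊔ L₂) hx)).symm)).2
  have e3 : ((cycO p R hpR (σ ^ j) : Rˣ) : R) - ((cycO p R hpR g : Rˣ) : R) ∈ maximalIdeal R ^ n := by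
    have hc : ∀ x ∈ L₂, (g⁻¹ * σ ^ j) x = x := by
      intro x hx
      rw [AlgEquiv.mul_apply, hj x ((le_sup_right : L₂ ≤ L₁ ⊔ L₂) hx)]
      exact g.symm_apply_apply x
    obtain ⟨y, hy⟩ := h₂ _ hc
    have h3 : ((cycO p R hpR (σ ^ j) : Rˣ) : R) - ((cycO p R hpR g : Rˣ) : R)
        = ((cycO p R hpR g : Rˣ) : R) * (((cycO p R hpR (g⁻¹ * σ ^ j) : Rˣ) : R) - 1) := by
      rw [mul_sub, mul_one, ← Units.val_mul, ← map_mul, mul_inv_cancel_left]
    rw [h3, hy]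
    exact Ideal.mul_mem_left _ _ (Ideal.mul_mem_right _ _ (Ideal.pow_mem_pow hpR n))
  have : LinearMap.det (ρ.ρ g) - ((cycO p R hpR g : Rˣ) : R)
      = (LinearMap.det (ρ.ρ g) - LinearMap.det (ρ.ρ (σ ^ j)))
        + (((cycO p R hpR (σ ^ j) : Rˣ) : R) - ((cycO p R hpR g : Rˣ) : R)) := by
    rw [e1]; ring
  rw [this]
  exact Ideal.add_mem _ e2 e3

/-- linear algebra: `f` stabilises the line `k b₀` and is trivial modulo it: `tr f = 1 + det f`. -/
theorem trace_eq_one_add_det {k V : Type*} [CommRing k] [AddCommGroup V] [Module k V]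
    (b : Basis (Fin 2) k V) (f : Module.End k V) (h0 : f (b 0) ∈ k ∙ b 0)
    (h1 : ∀ v, f v - v ∈ k ∙ b 0) : LinearMap.trace k V f = 1 + LinearMap.det f := by
  classical
  obtain ⟨a, ha⟩ := Submodule.mem_span_singleton.mp h0
  obtain ⟨c, hc⟩ := Submodule.mem_span_singleton.mp (h1 (b 1))
  have hb1 : f (b 1) = b 1 + c • b 0 := by rw [hc]; abel
  have hM : LinearMap.toMatrix b b f = !![a, c; 0, 1] := by
    ext i j
    rw [LinearMap.toMatrix_apply]
    fin_cases j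
    · simp only [Fin.zero_eta, ← ha, map_smul, Basis.repr_self, Finsupp.smul_apply, smul_eq_mul]
      fin_cases i <;> simp
    · simp only [Fin.mk_one, hb1, map_add, map_smul, Basis.repr_self, Finsupp.add_apply,
        Finsupp.smul_apply, smul_eq_mul]
      fin_cases i <;> simp
  rw [LinearMap.trace_eq_matrix_trace k b, ← LinearMap.det_toMatrix b, hM, Matrix.trace_fin_two,
    Matrix.det_fin_two]
  simp
  ring

/-- residual ordinarity: `tr ρ(τ) ≡ 1 + det ρ(τ)` modulo the maximal ideal, for `τ` in inertia. -/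
theorem trace_sub_mem_of_residual {T : Type} [CommRing T] [IsLocalRing T] (ρ : GaloisRepAdic T)
    {p : ℕ} (hres : (GaloisRepAdic.ofResidualGaloisRep ρ.residual).IsOrdinaryAt p)
    (P : ValuationSubring Qbar) (hP : P.LiesOverPrime p) (τ : GQ)
    (hτ : τ ∈ P.inertiaSubgroupIn ℚ) :
    LinearMap.trace T ρ.V (ρ.ρ τ) - (1 + LinearMap.det (ρ.ρ τ)) ∈ maximalIdeal T := by
  obtain ⟨L, ⟨b, rfl⟩, hD, hI⟩ := hres P hP
  have hτD : τ ∈ P.decompositionSubgroup ℚ := by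
    obtain ⟨τ', -, rfl⟩ := hτ
    exact τ'.2
  have h : LinearMap.trace (ResidueField T) (TensorProduct T (ResidueField T) ρ.V)
      ((ρ.ρ τ).baseChange (ResidueField T)) = 1 + LinearMap.det ((ρ.ρ τ).baseChange (ResidueField T)) :=
    trace_eq_one_add_det b ((ρ.ρ τ).baseChange (ResidueField T))
      (hD τ hτD _ (Submodule.mem_span_singleton_self _)) (hI τ hτ)
  rw [LinearMap.trace_baseChange, LinearMap.det_baseChange] at h
  rw [← residue_eq_zero_iff, map_sub, map_add, map_one, sub_eq_zero]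
  exact h

end Fermat.Agent.ORD.P1
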