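import Fermat.Agent.ORD.P1.Inertia
import Fermat.Agent.ORD.P1.Det
import Fermat.Agent.S55.P.Places
import Fermat.Prelude.Def_CuspForm_HeckeGaloisRepDatum

/-!
# ORD / P1 : ALGEBRA I.  `S33 ⇐ (O)`

`(O)` : `(ρ(s₀) - α)(ρ(τ) - 1) = 0` for all `τ` in the inertia group, where `s₀` is an inertia
element with `ε(s₀) ≢ 1` and `α ≡ ε(s₀)` is the root of the characteristic polynomial of `ρ(s₀)`.
-/

set_option autoImplicit false

namespace Fermat.Agent.ORD.P1

open IsLocalRing Module Polynomial Fermat.Agent.TOR Fermat.Agent.GR.Adic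
open Fermat.Agent.GR.Asm (WeakChebotarev)

local notation "Qbar" => AlgebraicClosure ℚ
local notation "GQ" => (AlgebraicClosure ℚ ≃ₐ[ℚ] AlgebraicClosure ℚ)

section linalg

variable {T V : Type*} [CommRing T] [AddCommGroup V] [Module T V]

theorem algI_basis_aux (b : Basis (Fin 2) T V) (f : Module.End T V) (α β : T)
    (htr : LinearMap.trace T V f = α + β) (hdet : LinearMap.det f = α * β)
    (h1 : (f - algebraMap T (Module.End T V) α) * (f - algebraMap T (Module.End T V) β) = 0)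
    (h2 : (f - algebraMap T (Module.End T V) β) * (f - algebraMap T (Module.End T V) α) = 0)
    (hαβ : IsUnit (α - β)) (hu : IsUnit (LinearMap.toMatrix b b f 0 0 - β)) :
    ∃ b' : Basis (Fin 2) T V,
      (T ∙ b' 0) = LinearMap.ker (f - algebraMap T (Module.End T V) α) := by
  classical
  set A := LinearMap.toMatrix b b f with hA
  have htr' : A 0 0 + A 1 1 = α + β := by
    rw [← htr, LinearMap.trace_eq_matrix_trace T b f, Matrix.trace_fin_two]
  have hdet' : A 0 0 * A 1 1 - A 0 1 * A 1 0 = α * β := by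
    rw [← hdet, ← LinearMap.det_toMatrix b f, Matrix.det_fin_two]
  let v0 : V := f (b 0) - β • b 0
  let v1 : V := α • b 1 - f (b 1)
  let φ : V →ₗ[T] V := b.constr T ![v0, v1]
  have hφ0 : φ (b 0) = v0 := by simp [φ]
  have hφ1 : φ (b 1) = v1 := by simp [φ]
  have hM : LinearMap.toMatrix b b φ = !![A 0 0 - β, - A 0 1; A 1 0, α - A 1 1] := by
    ext i j
    rw [LinearMap.toMatrix_apply]
    fin_cases j
    · simp only [Fin.zero_eta, hφ0, v0, map_sub, map_smul, Basis.repr_self, Finsupp.sub_apply,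
        Finsupp.smul_apply, smul_eq_mul]
      fin_cases i <;> simp [hA, LinearMap.toMatrix_apply]
    · simp only [Fin.mk_one, hφ1, v1, map_sub, map_smul, Basis.repr_self, Finsupp.sub_apply,
        Finsupp.smul_apply, smul_eq_mul]
      fin_cases i <;> simp [hA, LinearMap.toMatrix_apply]
  have hdetφ : (LinearMap.toMatrix b b φ).det = (A 0 0 - β) * (α - β) := by
    rw [hM, Matrix.det_fin_two_of]
    linear_combination β * htr' - hdet'
  have hunit : IsUnit (LinearMap.toMatrix b b φ).det := by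
    rw [hdetφ]; exact hu.mul hαβ
  let e : V ≃ₗ[T] V := LinearEquiv.ofIsUnitDet hunit
  let b' : Basis (Fin 2) T V := b.map e
  have hb0 : b' 0 = v0 := by
    rw [Basis.map_apply, LinearEquiv.ofIsUnitDet_apply, hφ0]
  have hb1 : b' 1 = v1 := by
    rw [Basis.map_apply, LinearEquiv.ofIsUnitDet_apply, hφ1]
  have hv0 : (f - algebraMap T (Module.End T V) α) v0 = 0 := by
    have := LinearMap.congr_fun h1 (b 0)
    simpa [v0, Module.End.mul_apply, Module.algebraMap_end_apply] using this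
  have hv1 : (f - algebraMap T (Module.End T V) β) v1 = 0 := by
    have := LinearMap.congr_fun h2 (b 1)
    have h3 : v1 = - ((f - algebraMap T (Module.End T V) α) (b 1)) := by
      simp [v1, Module.algebraMap_end_apply]
    rw [h3, map_neg, neg_eq_zero]
    simpa [Module.End.mul_apply] using this
  have hv1' : (f - algebraMap T (Module.End T V) α) v1 = (β - α) • v1 := by
    have h3 : f v1 = β • v1 := by
      have := hv1
      rw [LinearMap.sub_apply, Module.algebraMap_end_apply, sub_eq_zero] at this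
      exact this
    rw [LinearMap.sub_apply, Module.algebraMap_end_apply, h3, sub_smul]
  refine ⟨b', le_antisymm ?_ ?_⟩
  · rw [Submodule.span_singleton_le_iff_mem, LinearMap.mem_ker, hb0]
    exact hv0
  · intro x hx
    rw [LinearMap.mem_ker] at hx
    have hx' := b'.sum_repr x
    rw [Fin.sum_univ_two, hb0, hb1] at hx'
    rw [← hx', map_add, map_smul, map_smul, hv0, smul_zero, zero_add, hv1', smul_smul] at hx
    have h4 : b'.repr ((b'.repr x 1 * (β - α)) • b' 1) 1 = 0 := by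
      rw [hb1, hx]; simp
    rw [map_smul, Basis.repr_self, Finsupp.smul_apply, Finsupp.single_eq_same, smul_eq_mul,
      mul_one] at h4
    have h5 : b'.repr x 1 = 0 := by
      have hu' : IsUnit (β - α) := by
        have := hαβ.neg
        rwa [neg_sub] at this
      exact (hu'.mul_left_eq_zero).mp h4
    rw [← hx', h5, zero_smul, add_zero, hb0]
    exact Submodule.smul_mem _ _ (Submodule.mem_span_singleton_self _)

/-- if `charpoly f = (X - α)(X - β)` with `α - β` a unit of the local ring `T`, the `α`-eigenspace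
is a basis line. -/
theorem algI_exists_basis [IsLocalRing T] [Module.Free T V] [Module.Finite T V]
    (hV : Module.finrank T V = 2) (f : Module.End T V) (α β : T)
    (hchar : LinearMap.charpoly f = (X - C α) * (X - C β)) (hαβ : IsUnit (α - β)) :
    ∃ b' : Basis (Fin 2) T V,
      (T ∙ b' 0) = LinearMap.ker (f - algebraMap T (Module.End T V) α) := by
  classical
  have hchar' : LinearMap.charpoly f = X ^ 2 - C (α + β) * X + C (α * β) := by
    rw [hchar, C_add, C_mul]; ring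
  obtain ⟨htr, hdet⟩ := tor_trace_det_of_charpoly hV f _ _ hchar'
  have hCH := LinearMap.aeval_self_charpoly f
  have h1 : (f - algebraMap T (Module.End T V) α) * (f - algebraMap T (Module.End T V) β) = 0 := by
    have := hCH
    rw [hchar, map_mul, map_sub, map_sub, aeval_X, aeval_C, aeval_C] at this
    exact this
  have h2 : (f - algebraMap T (Module.End T V) β) * (f - algebraMap T (Module.End T V) α) = 0 := by
    have := hCH
    rw [hchar, mul_comm, map_mul, map_sub, map_sub, aeval_X, aeval_C, aeval_C] at this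
    exact this
  let b := Module.finBasisOfFinrankEq T V hV
  have htr' : LinearMap.toMatrix b b f 0 0 + LinearMap.toMatrix b b f 1 1 = α + β := by
    rw [← htr, LinearMap.trace_eq_matrix_trace T b f, Matrix.trace_fin_two]
  have hsum : IsUnit ((LinearMap.toMatrix b b f 0 0 - β) + (LinearMap.toMatrix b b f 1 1 - β)) := by
    have : (LinearMap.toMatrix b b f 0 0 - β) + (LinearMap.toMatrix b b f 1 1 - β) = α - β := by
      linear_combination htr'
    rw [this]; exact hαβ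
  rcases IsLocalRing.isUnit_or_isUnit_of_isUnit_add hsum with hu | hu
  · exact algI_basis_aux b f α β htr hdet h1 h2 hαβ hu
  · refine algI_basis_aux (b.reindex (Equiv.swap 0 1)) f α β htr hdet h1 h2 hαβ ?_
    have : LinearMap.toMatrix (b.reindex (Equiv.swap 0 1)) (b.reindex (Equiv.swap 0 1)) f 0 0
        = LinearMap.toMatrix b b f 1 1 := by
      simp [LinearMap.toMatrix_apply, Basis.reindex_apply]
    rw [this]; exact hu

end linalg

/-- the inertia group is normal in the decomposition group. -/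
theorem conj_mem_inertia (P : ValuationSubring Qbar) {d i : GQ}
    (hd : d ∈ P.decompositionSubgroup ℚ) (hi : i ∈ P.inertiaSubgroupIn ℚ) :
    d * i * d⁻¹ ∈ P.inertiaSubgroupIn ℚ :=
  Fermat.Agent.S55.P.conj_mem_inertiaSubgroupIn P hd hi

/-- **ALGEBRA I.** -/
theorem isOrdinaryAt_of_exists {T : Type} [CommRing T] [IsLocalRing T] (ρ : GaloisRepAdic T)
    (p : ℕ)
    (h : ∀ P : ValuationSubring Qbar, P.LiesOverPrime p → ∃ s₀ ∈ P.inertiaSubgroupIn ℚ,
      ∃ α β : T, IsUnit (α - 1) ∧ IsUnit (α - β) ∧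
        LinearMap.charpoly (ρ.ρ s₀) = (X - C α) * (X - C β) ∧
        ∀ τ ∈ P.inertiaSubgroupIn ℚ,
          (ρ.ρ s₀ - algebraMap T (Module.End T ρ.V) α) * (ρ.ρ τ - 1) = 0) :
    ρ.IsOrdinaryAt p := by
  intro P hP
  obtain ⟨s₀, hs₀, α, β, hα1, hαβ, hchar, hO⟩ := h P hP
  obtain ⟨b, hb⟩ := algI_exists_basis ρ.finrank_eq (ρ.ρ s₀) α β hchar hαβ
  have hI : ∀ σ ∈ P.inertiaSubgroupIn ℚ, ∀ v : ρ.V,
      ρ.ρ σ v - v ∈ LinearMap.ker (ρ.ρ s₀ - algebraMap T (Module.End T ρ.V) α) := by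
    intro σ hσ v
    rw [LinearMap.mem_ker]
    have := LinearMap.congr_fun (hO σ hσ) v
    simpa [Module.End.mul_apply] using this
  refine ⟨LinearMap.ker (ρ.ρ s₀ - algebraMap T (Module.End T ρ.V) α), ⟨b, hb.symm⟩, ?_, hI⟩
  intro σ hσ v hv
  obtain ⟨u, hu⟩ := hα1
  have hv' : ρ.ρ s₀ v = α • v := by
    rw [LinearMap.mem_ker, LinearMap.sub_apply, Module.algebraMap_end_apply, sub_eq_zero] at hv
    exact hv
  have hw : ρ.ρ s₀ ((↑u⁻¹ : T) • v) - (↑u⁻¹ : T) • v = v := by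
    have h3 : α • v - v = (α - 1) • v := by rw [sub_smul, one_smul]
    rw [map_smul, hv', ← smul_sub, h3, smul_smul, ← hu, Units.inv_mul, one_smul]
  have hconj : ρ.ρ σ (ρ.ρ s₀ ((↑u⁻¹ : T) • v)) =
      ρ.ρ (σ * s₀ * σ⁻¹) (ρ.ρ σ ((↑u⁻¹ : T) • v)) := by
    rw [← Module.End.mul_apply, ← Module.End.mul_apply, ← map_mul, ← map_mul]
    congr 2
    group
  rw [← hw, map_sub, hconj]
  exact hI _ (conj_mem_inertia P hσ hs₀) _

section hensel

variable {T : Type*} [CommRing T] [IsLocalRing T]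

theorem algI_isUnit_of_sub_mem {x y : T} (hx : IsUnit x) (h : y - x ∈ maximalIdeal T) :
    IsUnit y := by
  rw [← IsLocalRing.notMem_maximalIdeal] at hx ⊢
  intro hy
  apply hx
  have : x = y - (y - x) := by ring
  rw [this]
  exact Ideal.sub_mem _ hy h

/-- Hensel: the roots `β ≡ 1`, `α ≡ d` of `X² - t X + d` when `t ≡ 1 + d`, `d ≢ 1`. -/
theorem algI_exists_roots [IsAdicComplete (maximalIdeal T) T] (t d : T)
    (ht : t - (1 + d) ∈ maximalIdeal T) (hd : IsUnit (d - 1)) :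
    ∃ α β : T, α + β = t ∧ α * β = d ∧ β - 1 ∈ maximalIdeal T ∧ α - d ∈ maximalIdeal T := by
  have hmonic : (X ^ 2 - C t * X + C d : T[X]).Monic := by
    monicity!
  obtain ⟨β, hβ, hβ1⟩ := HenselianRing.is_henselian (I := maximalIdeal T)
    (X ^ 2 - C t * X + C d : T[X]) hmonic 1 (by
      have : (X ^ 2 - C t * X + C d : T[X]).eval 1 = - (t - (1 + d)) := by
        simp; ring
      rw [this]
      exact Ideal.neg_mem_iff _ |>.mpr ht) (by
      apply IsUnit.map
      have : (derivative (X ^ 2 - C t * X + C d : T[X])).eval 1 = 2 - t := by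
        simp
        norm_num
      rw [this]
      refine algI_isUnit_of_sub_mem hd.neg ?_
      have : 2 - t - -(d - 1) = - (t - (1 + d)) := by ring
      rw [this]
      exact Ideal.neg_mem_iff _ |>.mpr ht)
  have hβ' : β ^ 2 - t * β + d = 0 := by
    have := hβ
    simpa [IsRoot.def] using this
  refine ⟨t - β, β, by ring, by linear_combination (-1 : T) * hβ', hβ1, ?_⟩
  have : t - β - d = (t - (1 + d)) - (β - 1) := by ring
  rw [this]
  exact Ideal.sub_mem _ ht hβ1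

theorem algI_root_unique {t d α β α' : T} (h1 : α + β = t) (h2 : α * β = d)
    (hβ : β - 1 ∈ maximalIdeal T) (hd : IsUnit (d - 1)) (hα' : α' * α' - t * α' + d = 0)
    (hα'd : α' - d ∈ maximalIdeal T) : α' = α := by
  have hu : IsUnit (α' - β) := by
    refine algI_isUnit_of_sub_mem hd ?_
    have : α' - β - (d - 1) = (α' - d) - (β - 1) := by ring
    rw [this]
    exact Ideal.sub_mem _ hα'd hβ
  have h3 : (α' - α) * (α' - β) = 0 := by
    subst h1 h2
    linear_combination hα'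
  exact sub_eq_zero.mp ((hu.mul_left_eq_zero).mp h3)

end hensel

/-- **S33 ⇐ (O)**, abstract form. `s₀` is any inertia element acting as `ζ ↦ ζ²` on `μ_p`. -/
theorem isOrdinaryAt_of_O (hcheb : WeakChebotarev) {p : ℕ} (hp : p.Prime) (hp2 : p ≠ 2)
    {T : Type} [CommRing T] [IsLocalRing T] [IsAdicComplete (maximalIdeal T) T]
    (hpT : (p : T) ∈ maximalIdeal T) (ρ : GaloisRepAdic T) (B : Finset ℕ)
    (hρ : ∀ ℓ : ℕ, ℓ.Prime → ℓ ∉ B → ∀ A : ValuationSubring Qbar, A.LiesOverPrime ℓ →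
      ∀ σ : GQ, A.IsFrobeniusAt σ ℓ → LinearMap.det (ρ.ρ σ) = (ℓ : T))
    (hres : (GaloisRepAdic.ofResidualGaloisRep ρ.residual).IsOrdinaryAt p)
    (hO : ∀ P : ValuationSubring Qbar, P.LiesOverPrime p → ∀ s₀ ∈ P.inertiaSubgroupIn ℚ,
      (∀ ζ : Qbar, ζ ^ p = 1 → s₀ ζ = ζ ^ 2) → ∀ α : T,
        α * α - LinearMap.trace T ρ.V (ρ.ρ s₀) * α + LinearMap.det (ρ.ρ s₀) = 0 →
        α - 2 ∈ maximalIdeal T → ∀ τ ∈ P.inertiaSubgroupIn ℚ,
          (ρ.ρ s₀ - algebraMap T (Module.End T ρ.V) α) * (ρ.ρ τ - 1) = 0) :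
    ρ.IsOrdinaryAt p := by
  have : Fact p.Prime := ⟨hp⟩
  apply isOrdinaryAt_of_exists
  intro P hP
  have h2 : ¬ p ∣ 2 := by
    intro h
    exact hp2 ((Nat.prime_dvd_prime_iff_eq hp Nat.prime_two).mp h)
  obtain ⟨s₀, hs₀, hs₀ζ⟩ := exists_inertia_pow P hp hP 1 2 h2
  simp only [pow_one] at hs₀ζ
  set d := LinearMap.det (ρ.ρ s₀) with hd
  set t := LinearMap.trace T ρ.V (ρ.ρ s₀) with ht
  have hd2 : d - 2 ∈ maximalIdeal T := by
    obtain ⟨ζ, hζ⟩ := cyc_exists_primitiveRoot p 1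
    have h3 := cycO_sub_intCast_dvd p T hpT s₀ 1 2 hζ (by
      rw [hs₀ζ ζ (by simpa using hζ.pow_eq_one)]
      norm_cast)
    rw [hd, det_eq_cycO hcheb p hpT ρ B hρ s₀]
    obtain ⟨y, hy⟩ := h3
    have h4 : ((cycO p T hpT s₀ : Tˣ) : T) - 2 = (p : T) * y := by
      rw [← pow_one (p : T), ← hy]; norm_num
    rw [h4]
    exact Ideal.mul_mem_right _ _ hpT
  have hd1 : IsUnit (d - 1) := by
    refine algI_isUnit_of_sub_mem isUnit_one ?_
    have : d - 1 - 1 = d - 2 := by ring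
    rw [this]; exact hd2
  have htd : t - (1 + d) ∈ maximalIdeal T := trace_sub_mem_of_residual ρ hres P hP s₀ hs₀
  obtain ⟨α, β, hαβt, hαβd, hβ1, hαd⟩ := algI_exists_roots t d htd hd1
  have hα2 : α - 2 ∈ maximalIdeal T := by
    have : α - 2 = (α - d) + (d - 2) := by ring
    rw [this]; exact Ideal.add_mem _ hαd hd2
  refine ⟨s₀, hs₀, α, β, ?_, ?_, ?_, ?_⟩
  · refine algI_isUnit_of_sub_mem isUnit_one ?_
    have : α - 1 - 1 = α - 2 := by ring
    rw [this]; exact hα2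
  · refine algI_isUnit_of_sub_mem hd1 ?_
    have : α - β - (d - 1) = (α - d) - (β - 1) := by ring
    rw [this]; exact Ideal.sub_mem _ hαd hβ1
  · rw [tor_charpoly_eq ρ.finrank_eq, ← ht, ← hd, ← hαβt, ← hαβd, C_add, C_mul]
    ring
  · refine hO P hP s₀ hs₀ hs₀ζ α ?_ hα2
    rw [← ht, ← hd, ← hαβt, ← hαβd]
    ring

section datum

variable {p : ℕ} {N : ℕ} [NeZero N] {S : Finset ℕ}
  {𝒪 : Type} [CommRing 𝒪] [IsDomain 𝒪] [IsDiscreteValuationRing 𝒪]
  [IsAdicComplete (IsLocalRing.maximalIdeal 𝒪) 𝒪]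
  {θ : CuspForm.heckeAlgebra N 2 (↑S : Set ℕ) →+* IsLocalRing.ResidueField 𝒪}
  {T : Type} [CommRing T] [IsLocalRing T] [IsNoetherianRing T]
  [IsAdicComplete (IsLocalRing.maximalIdeal T) T] [Algebra 𝒪 T] [IsLocalHom (algebraMap 𝒪 T)]
  [Module.Finite 𝒪 T] [Module.Free 𝒪 T]

theorem natCast_mem_maximalIdeal (hp𝒪 : (p : 𝒪) ∈ IsLocalRing.maximalIdeal 𝒪) :
    (p : T) ∈ maximalIdeal T := by
  have h1 : (p : T) = algebraMap 𝒪 T (p : 𝒪) := (map_natCast _ _).symm
  rw [h1]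
  exact map_nonunit (algebraMap 𝒪 T) _ hp𝒪

theorem datum_det_frob (hNS : ∀ q : ℕ, q.Prime → q ∣ N → q ∈ S)
    (H : CuspForm.HeckeGaloisRepDatum N (↑S : Set ℕ) 𝒪 θ T) (ℓ : ℕ) (hℓ : ℓ.Prime) (hℓS : ℓ ∉ S)
    (A : ValuationSubring Qbar) (hA : A.LiesOverPrime ℓ) (σ : GQ) (hσ : A.IsFrobeniusAt σ ℓ) :
    LinearMap.det (H.ρ.ρ σ) = (ℓ : T) :=
  (tor_trace_det_of_charpoly H.ρ.finrank_eq _ _ _
    (H.charpoly_frob ℓ hℓ (fun h => hℓS (hNS ℓ hℓ h)) (by simpa using hℓS) A hA σ hσ)).2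

/-- `det ρ = ε` for a Hecke-Galois datum. -/
theorem datum_det_eq_cycO (hcheb : WeakChebotarev) [Fact p.Prime]
    (hp𝒪 : (p : 𝒪) ∈ IsLocalRing.maximalIdeal 𝒪) (hNS : ∀ q : ℕ, q.Prime → q ∣ N → q ∈ S)
    (H : CuspForm.HeckeGaloisRepDatum N (↑S : Set ℕ) 𝒪 θ T) (g : GQ) :
    LinearMap.det (H.ρ.ρ g) = ((cycO p T (natCast_mem_maximalIdeal hp𝒪) g : Tˣ) : T) :=
  det_eq_cycO hcheb p _ H.ρ S (datum_det_frob hNS H) g

/-- **S33 ⇐ (O)** for a Hecke-Galois datum. -/
theorem S33_of_O (hcheb : WeakChebotarev) (hp : p.Prime) (hp2 : p ≠ 2)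
    (hp𝒪 : (p : 𝒪) ∈ IsLocalRing.maximalIdeal 𝒪) (hNS : ∀ q : ℕ, q.Prime → q ∣ N → q ∈ S)
    (H : CuspForm.HeckeGaloisRepDatum N (↑S : Set ℕ) 𝒪 θ T)
    (hres : (GaloisRepAdic.ofResidualGaloisRep H.ρ.residual).IsOrdinaryAt p)
    (hO : ∀ P : ValuationSubring Qbar, P.LiesOverPrime p → ∀ s₀ ∈ P.inertiaSubgroupIn ℚ,
      (∀ ζ : Qbar, ζ ^ p = 1 → s₀ ζ = ζ ^ 2) → ∀ α : T,
        α * α - LinearMap.trace T H.ρ.V (H.ρ.ρ s₀) * α + LinearMap.det (H.ρ.ρ s₀) = 0 →
        α - 2 ∈ maximalIdeal T → ∀ τ ∈ P.inertiaSubgroupIn ℚ,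
          (H.ρ.ρ s₀ - algebraMap T (Module.End T H.ρ.V) α) * (H.ρ.ρ τ - 1) = 0) :
    H.ρ.IsOrdinaryAt p :=
  isOrdinaryAt_of_O hcheb hp hp2 (natCast_mem_maximalIdeal hp𝒪) H.ρ S (datum_det_frob hNS H) hres hO

end datum

end Fermat.Agent.ORD.P1
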